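import Fermat.Agent.MW.Multiplication

/-!
# Splittings of the divisors in `|2g·P₀|`

`thetaDiv Pc = W + Pc` has degree `2g - 1` and `l = g`; a splitting `E₁ + E₂ = 2g·P₀ + div h` is good
if `l(W + Pc - Eᵢ) = 0`. Good splittings are unique in the class of their images, and the functions
with a good splitting are dense in `L(2g·P₀)`.
-/

set_option autoImplicit false

noncomputable section

open AlgebraicCurve FermatAgent.Curve MvPolynomial FermatAgent.MW

namespace FermatAgent.Torsion27

variable {K F : Type*} [Field K] [Field F] [Algebra K F] [IsAlgClosed K] [IsFunctionField1 K F]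

/-- `W + Pc`. -/
def thetaDiv (Pc : Place K F) : Divisor K F := RR.weilCanonical K F + Finsupp.single Pc 1

/-- `2g·P₀`. -/
def twoG (P₀ : Place K F) : Divisor K F := Finsupp.single P₀ (2 * (genusFF K F : ℤ))

theorem degree_thetaDiv (Pc : Place K F) :
    Divisor.degree (thetaDiv Pc) = 2 * (genusFF K F : ℤ) - 1 := by
  rw [thetaDiv, map_add, RR.degree_weilCanonical, RR.degree_single]
  ring

theorem ell_thetaDiv (Pc : Place K F) : RR.ell (thetaDiv Pc) = genusFF K F := by
  have h := RR.ell_eq_of_degree_ge (D := thetaDiv Pc) (by rw [degree_thetaDiv])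
  rw [degree_thetaDiv] at h
  omega

theorem degree_twoG (P₀ : Place K F) : Divisor.degree (twoG P₀) = 2 * (genusFF K F : ℤ) :=
  RR.degree_single P₀ _

theorem ell_twoG (P₀ : Place K F) : RR.ell (twoG P₀) = genusFF K F + 1 := by
  have h := RR.ell_eq_of_degree_ge (D := twoG P₀) (by rw [degree_twoG]; omega)
  rw [degree_twoG] at h
  omega

/-- The two conditions of a good splitting. -/
def IsGood (Pc : Place K F) (E₁ E₂ : Divisor K F) : Prop :=
  RR.ell (thetaDiv Pc - E₁) = 0 ∧ RR.ell (thetaDiv Pc - E₂) = 0

theorem ell_eq_one_of_thetaDiv {Pc : Place K F} {E : Divisor K F}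
    (hd : Divisor.degree E = genusFF K F) (h : RR.ell (thetaDiv Pc - E) = 0) : RR.ell E = 1 := by
  have h1 := RR.riemann_roch E
  have h2 : RR.ell (RR.weilCanonical K F - E) ≤ RR.ell (thetaDiv Pc - E) :=
    RR.ell_mono (sub_le_sub_right (RR.le_add_single _ _) _)
  omega

/-- Functions in `L(D)` with the same divisor are proportional. -/
theorem exists_eq_smul_of_divFn_eq {f f' : F} (hf : f ≠ 0) (hf' : f' ≠ 0)
    (h : RR.divFn (K := K) f = RR.divFn f') : ∃ c : K, algebraMap K F c * f = f' := by
  have hord : ∀ v : Place K F, v.ord (f' * f⁻¹) = 0 := fun v => by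
    have := DFunLike.congr_fun h v
    simp only [RR.divFn_apply] at this
    rw [v.ord_mul hf' (inv_ne_zero hf), v.ord_inv, this, add_neg_cancel]
  obtain ⟨c, hc⟩ := RR.mem_riemannRochSpace_zero_iff.mp (mem_riemannRochSpace_iff.mpr fun v =>
    Or.inr (by rw [hord v, Finsupp.coe_zero, Pi.zero_apply, neg_zero]) :
      f' * f⁻¹ ∈ riemannRochSpace (0 : Divisor K F))
  exact ⟨c, by rw [hc, inv_mul_cancel_right₀ hf]⟩

/-- An effective divisor with `l = 1` is alone in its class. -/
theorem eq_of_sub_mem_principal {E E' : Divisor K F} (hE : 0 ≤ E) (hE' : 0 ≤ E')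
    (h1 : RR.ell E = 1) (h : E' - E ∈ Divisor.principal (K := K) (F := F)) : E' = E := by
  obtain ⟨f, hf, hd⟩ := RR.mem_principal_iff_divFn.mp h
  have hfE : f ∈ riemannRochSpace E := mem_riemannRochSpace_iff.mpr fun v => Or.inr (by
    have h2 := DFunLike.congr_fun hd v
    have h3 := Finsupp.le_def.mp hE' v
    simp only [Finsupp.sub_apply, RR.divFn_apply, Finsupp.coe_zero, Pi.zero_apply] at h2 h3
    omega)
  have h1mem : (1 : F) ∈ riemannRochSpace E := mem_riemannRochSpace_iff.mpr fun v => Or.inr (by
    rw [v.ord_one]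
    have := Finsupp.le_def.mp hE v
    simp only [Finsupp.coe_zero, Pi.zero_apply] at this
    omega)
  obtain ⟨c, hc⟩ := (finrank_eq_one_iff_of_nonzero' (⟨1, h1mem⟩ : riemannRochSpace E)
    (fun h0 => one_ne_zero (congrArg Subtype.val h0))).mp h1 ⟨f, hfE⟩
  have hfc : algebraMap K F c = f := by
    have := congrArg Subtype.val hc
    simpa [Algebra.smul_def] using this
  have hc0 : c ≠ 0 := fun h0 => hf (by rw [← hfc, h0, map_zero])
  refine sub_eq_zero.mp (hd.trans (Finsupp.ext fun v => ?_))
  rw [RR.divFn_apply, ← hfc, RR.ord_algebraMap v hc0]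
  rfl

/-- A good splitting is determined by its class up to sign. -/
theorem add_eq_of_class {P₀ Pc : Place K F} {h h' : F} (hh : h ≠ 0) (hh' : h' ≠ 0)
    {E₁ E₂ E₁' E₂' : Divisor K F} (hE₁ : 0 ≤ E₁) (hE₂ : 0 ≤ E₂) (hE₁' : 0 ≤ E₁') (hE₂' : 0 ≤ E₂')
    (hd₁ : Divisor.degree E₁ = genusFF K F) (hd₂ : Divisor.degree E₂ = genusFF K F)
    (he : E₁ + E₂ = twoG P₀ + RR.divFn h) (he' : E₁' + E₂' = twoG P₀ + RR.divFn h')
    (hg : IsGood Pc E₁ E₂)
    (hcl : E₁' - E₁ ∈ Divisor.principal (K := K) (F := F) ∨
      E₁' + E₁ - twoG P₀ ∈ Divisor.principal (K := K) (F := F)) :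
    E₁' + E₂' = E₁ + E₂ := by
  have hp : RR.divFn h ∈ Divisor.principal (K := K) (F := F) :=
    RR.mem_principal_iff_divFn.mpr ⟨h, hh, rfl⟩
  have hp' : RR.divFn h' ∈ Divisor.principal (K := K) (F := F) :=
    RR.mem_principal_iff_divFn.mpr ⟨h', hh', rfl⟩
  have key : (E₁' + E₂') - (E₁ + E₂) ∈ Divisor.principal (K := K) (F := F) := by
    rw [he, he', add_sub_add_left_eq_sub]
    exact sub_mem hp' hp
  rcases hcl with hcl | hcl
  · have h1 := eq_of_sub_mem_principal hE₁ hE₁' (ell_eq_one_of_thetaDiv hd₁ hg.1) hcl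
    have h2 := eq_of_sub_mem_principal hE₂ hE₂' (ell_eq_one_of_thetaDiv hd₂ hg.2) (by
      rwa [h1, add_sub_add_left_eq_sub] at key)
    rw [h1, h2]
  · have h1 := eq_of_sub_mem_principal hE₂ hE₁' (ell_eq_one_of_thetaDiv hd₂ hg.2) (by
      have e : E₁' - E₂ = (E₁' + E₁ - twoG P₀) - RR.divFn h := by
        rw [eq_sub_iff_add_eq.mpr ((add_comm E₂ E₁).trans he)]
        abel
      rw [e]
      exact sub_mem hcl hp)
    have h2 := eq_of_sub_mem_principal hE₁ hE₂' (ell_eq_one_of_thetaDiv hd₁ hg.1) (by
      have e : E₂' - E₁ = (E₁' + E₂') - (E₁ + E₂) := by rw [h1]; abel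
      rw [e]
      exact key)
    rw [h1, h2, add_comm]

/-- Almost every place drops a non-zero space by one. -/
theorem finite_setOf_ell_sub_ne {A : Divisor K F} (hA : RR.ell A ≠ 0) :
    {P : Place K F | RR.ell (A - Finsupp.single P 1) + 1 ≠ RR.ell A}.Finite := by
  obtain ⟨f, hf, hf0⟩ := Submodule.exists_mem_ne_zero_of_ne_bot
    (p := riemannRochSpace A) fun hb => hA (by unfold RR.ell; rw [hb, finrank_bot])
  refine ((RR.finite_ord_ne_zero (K := K) f).union A.support.finite_toSet).subset fun P hP => ?_
  by_contra hcon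
  simp only [Set.mem_union, Set.mem_ofPred_eq, Finset.mem_coe, Finsupp.mem_support_iff, not_or,
    not_not] at hcon
  obtain ⟨hPf, hPA⟩ := hcon
  refine hP ?_
  have hf' := hf
  rw [← sub_add_cancel A (Finsupp.single P 1)] at hf'
  have h1 := RR.ell_add_single_of_notMem hf' fun hc => by
    have h3 := (mem_riemannRochSpace_iff.mp hc P).resolve_left hf0
    rw [Finsupp.sub_apply, Finsupp.single_eq_same] at h3
    omega
  rw [sub_add_cancel] at h1
  exact h1.symm

/-- Almost every place keeps a zero space of small degree zero. -/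
theorem finite_setOf_ell_add_ne_zero {A : Divisor K F} (hA : RR.ell A = 0)
    (hd : Divisor.degree A + 2 ≤ genusFF K F) :
    {P : Place K F | RR.ell (A + Finsupp.single P 1) ≠ 0}.Finite := by
  have h0 := RR.riemann_roch A
  refine (finite_setOf_ell_sub_ne (A := RR.weilCanonical K F - A) (by omega)).subset
    fun P (hP : RR.ell (A + Finsupp.single P 1) ≠ 0) => ?_
  show RR.ell (RR.weilCanonical K F - A - Finsupp.single P 1) + 1 ≠ _
  intro h1
  have h2 := RR.riemann_roch (A + Finsupp.single P 1)
  rw [map_add, RR.degree_single, ← sub_sub] at h2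
  omega

/-- **Density of good splittings.** A polynomial vanishing at all functions of `L(2g·P₀)` with a good
splitting vanishes everywhere. -/
theorem eval_eq_zero_of_good [CharZero K] (P₀ Pc : Place K F) {n : ℕ}
    (b : Module.Basis (Fin n) K (riemannRochSpace (twoG P₀))) (p : MvPolynomial (Fin n) K)
    (hp : ∀ h : riemannRochSpace (twoG P₀), (h : F) ≠ 0 → ∀ E₁ E₂ : Divisor K F, 0 ≤ E₁ → 0 ≤ E₂ →
      Divisor.degree E₁ = genusFF K F → Divisor.degree E₂ = genusFF K F →
      E₁ + E₂ = twoG P₀ + RR.divFn (h : F) → IsGood Pc E₁ E₂ → eval (b.equivFun h) p = 0)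
    (h : riemannRochSpace (twoG P₀)) : eval (b.equivFun h) p = 0 := by
  classical
  have := RR.infinite_place (K := K) (F := F)
  set g := genusFF K F with hg
  let good : Finset (Place K F) → Prop := fun t => t.card ≤ g ∧
    RR.ell (thetaDiv Pc - setDiv t) + t.card = g ∧
    RR.ell (thetaDiv Pc - twoG P₀ + setDiv t) = 0
  suffices H : ∀ (i : ℕ) (t : Finset (Place K F)), g - t.card = i → good t →
      ∀ u : riemannRochSpace (twoG P₀), (u : F) ∈ riemannRochSpace (twoG P₀ - setDiv t) →
        (u : F) ≠ 0 → eval (b.equivFun u) p = 0 by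
    have hgood : good ∅ := by
      refine ⟨Nat.zero_le _, by simp [setDiv, ell_thetaDiv, g], ?_⟩
      refine RR.ell_eq_zero_of_degree_neg ?_
      rw [setDiv, Finset.sum_empty, add_zero, map_sub, degree_thetaDiv, degree_twoG]
      omega
    have H0 := H g ∅ (by simp) hgood
    simp only [setDiv, Finset.sum_empty, sub_zero] at H0
    by_cases h0 : (h : F) = 0
    · -- the origin lies on a line through a non-zero function
      obtain ⟨u, hu, hu0⟩ := Submodule.exists_mem_ne_zero_of_ne_bot
        (p := riemannRochSpace (twoG P₀)) fun hb => by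
          have := ell_twoG (K := K) P₀
          rw [RR.ell, hb, finrank_bot] at this
          omega
      let pol : Polynomial K := aeval (fun k => Polynomial.C (b.equivFun ⟨u, hu⟩ k) * Polynomial.X) p
      have hpol : ∀ c : K, pol.eval c = eval (b.equivFun (c • ⟨u, hu⟩)) p := fun c => by
        show Polynomial.aeval c (aeval _ p) = _
        rw [← AlgHom.comp_apply, comp_aeval, ← aeval_eq_eval]
        refine congrArg (fun v => aeval v p) (funext fun k => ?_)
        rw [map_smul]
        simp only [Pi.smul_apply, smul_eq_mul, map_mul, Polynomial.aeval_C, Polynomial.aeval_X,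
          Algebra.algebraMap_self, RingHom.id_apply]
        exact mul_comm _ _
      have hz : pol = 0 := by
        refine Polynomial.eq_zero_of_infinite_isRoot pol
          (Set.Infinite.mono (s := {0}ᶜ) (fun c hc => ?_) (Set.finite_singleton 0).infinite_compl)
        show pol.eval c = 0
        rw [hpol]
        refine H0 _ (c • ⟨u, hu⟩ : riemannRochSpace (twoG P₀)).2 ?_
        show c • u ≠ 0
        exact smul_ne_zero hc hu0
      have := hpol 0
      rw [hz, Polynomial.eval_zero, zero_smul] at this
      rw [show h = 0 from Subtype.ext h0]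
      exact this.symm
    · exact H0 h h.2 h0
  intro i
  induction i with
  | zero =>
    rintro t ht ⟨htg, hl, hr⟩ u hu hu0
    have hcard : t.card = g := by omega
    refine hp u hu0 (setDiv t) (twoG P₀ + RR.divFn (u : F) - setDiv t) (setDiv_nonneg t) ?_
      (by rw [degree_setDiv, hcard]) ?_ (by abel) ⟨by omega, ?_⟩
    · refine Finsupp.le_def.mpr fun v => ?_
      have h1 := (mem_riemannRochSpace_iff.mp hu v).resolve_left hu0
      simp only [Finsupp.sub_apply, Finsupp.add_apply, RR.divFn_apply, Finsupp.coe_zero,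
        Pi.zero_apply] at h1 ⊢
      omega
    · rw [map_sub, map_add, degree_twoG, RR.degree_divFn, degree_setDiv, hcard]
      ring
    · refine (RR.ell_eq_of_sub_eq_divFn (inv_ne_zero hu0) ?_).trans hr
      refine Finsupp.ext fun v => ?_
      simp only [Finsupp.sub_apply, Finsupp.add_apply, RR.divFn_apply, v.ord_inv]
      ring
  | succ i ih =>
    rintro t ht ⟨htg, hl, hr⟩ x hx hx0
    have hlt : t.card < g := by omega
    -- a second function
    have hdim : 2 ≤ RR.ell (twoG P₀ - setDiv t) := by
      have := RR.riemann_inequality (twoG P₀ - setDiv t)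
      rw [map_sub, degree_twoG, degree_setDiv] at this
      omega
    obtain ⟨y, hy, hyx⟩ : ∃ y ∈ riemannRochSpace (twoG P₀ - setDiv t),
        y ∉ Submodule.span K {(x : F)} := by
      by_contra hall
      push Not at hall
      have hle : riemannRochSpace (twoG P₀ - setDiv t) ≤ Submodule.span K {(x : F)} := hall
      have h2 := Submodule.finrank_mono hle
      rw [finrank_span_singleton hx0] at h2
      exact absurd h2 (by unfold RR.ell at hdim; omega)
    have hy0 : y ≠ 0 := fun h0 => hyx (h0 ▸ zero_mem _)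
    set φ := (x : F) * y⁻¹ with hφdef
    have hφ : ∀ c : K, φ - algebraMap K F c ≠ 0 := fun c h0 => by
      have hxy : (x : F) = algebraMap K F c * y := by
        rw [← sub_eq_zero.mp h0, hφdef, inv_mul_cancel_right₀ hy0]
      have hc : c ≠ 0 := fun hc => hx0 (by rw [hxy, hc, map_zero, zero_mul])
      exact hyx (Submodule.mem_span_singleton.mpr ⟨c⁻¹, by
        rw [Algebra.smul_def, hxy, ← mul_assoc, ← map_mul, inv_mul_cancel₀ hc, map_one, one_mul]⟩)
    -- the places which may be added
    have hbad₂ := finite_setOf_ell_add_ne_zero (A := thetaDiv Pc - twoG P₀ + setDiv t) hr (by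
      rw [map_add, map_sub, degree_thetaDiv, degree_twoG, degree_setDiv]
      omega)
    have hbad₁ := finite_setOf_ell_sub_ne (A := thetaDiv Pc - setDiv t) (by omega)
    let Bad : Set (Place K F) := {P | RR.ell (thetaDiv Pc - setDiv t - Finsupp.single P 1) + 1 ≠
        RR.ell (thetaDiv Pc - setDiv t)} ∪
      {P | RR.ell (thetaDiv Pc - twoG P₀ + setDiv t + Finsupp.single P 1) ≠ 0} ∪ ↑t ∪
      ↑(twoG P₀).support ∪ {P | P.ord y ≠ 0} ∪ {P | P.ord φ ≠ 0}
    have hBad : Bad.Finite := ((((hbad₁.union hbad₂).union t.finite_toSet).union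
      (twoG P₀).support.finite_toSet).union (RR.finite_ord_ne_zero y)).union
        (RR.finite_ord_ne_zero φ)
    have key : ∀ P ∉ Bad, ∀ c : K, valueAt P φ = c →
        eval (b.equivFun (x - c • (⟨y, RR.riemannRochSpace_mono
          (sub_le_self _ (setDiv_nonneg t)) hy⟩ : riemannRochSpace (twoG P₀)))) p = 0 := by
      intro P hP c hc
      simp only [Bad, Set.mem_union, Set.mem_ofPred_eq, Finset.mem_coe, Finsupp.mem_support_iff,
        not_or, not_not] at hP
      obtain ⟨⟨⟨⟨⟨h1, h2⟩, h3⟩, h4⟩, h5⟩, h6⟩ := hP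
      have e1 : setDiv (insert P t) = setDiv t + Finsupp.single P 1 := by
        rw [setDiv_insert h3, add_comm]
      have hins : good (insert P t) := by
        refine ⟨by rw [Finset.card_insert_of_notMem h3]; omega, ?_, ?_⟩
        · rw [e1, ← sub_sub, Finset.card_insert_of_notMem h3]; omega
        · rw [e1, ← add_assoc]; exact h2
      refine ih (insert P t) (by rw [Finset.card_insert_of_notMem h3]; omega) hins _ ?_ ?_
      · show (x : F) - c • y ∈ riemannRochSpace _
        have hfac : (x : F) - c • y = (φ - algebraMap K F c) * y := by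
          rw [sub_mul, hφdef, inv_mul_cancel_right₀ hy0, Algebra.smul_def]
        have hmem : (x : F) - c • y ∈ riemannRochSpace (twoG P₀ - setDiv t) :=
          Submodule.sub_mem _ hx (Submodule.smul_mem _ c hy)
        refine mem_riemannRochSpace_iff.mpr fun v => Or.inr ?_
        have hne : (x : F) - c • y ≠ 0 := hfac ▸ mul_ne_zero (hφ c) hy0
        have h7 := (mem_riemannRochSpace_iff.mp hmem v).resolve_left hne
        rw [e1, ← sub_sub, Finsupp.sub_apply]
        rcases eq_or_ne v P with rfl | hv
        · have hφm : φ ∈ v.toValuationSubring := (mem_iff_ord_nonneg' v).mpr h6.ge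
          have hz : valueAt v (φ - algebraMap K F c) = 0 := by
            rw [valueAt_sub v hφm (v.algebraMap_mem' c), valueAt_algebraMap, hc, sub_self]
          have hpos := ((valueAt_eq_zero_iff v (sub_mem hφm (v.algebraMap_mem' c))).mp hz
            ).resolve_left (hφ c)
          rw [Finsupp.single_eq_same, Finsupp.sub_apply, h4, setDiv_apply, if_neg h3, hfac,
            v.ord_mul (hφ c) hy0, h5]
          omega
        · rw [Finsupp.single_eq_of_ne hv, sub_zero]
          exact h7
      · show (x : F) - c • y ≠ 0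
        intro h0
        have h9 : (x : F) = algebraMap K F c * y := by
          rw [sub_eq_zero.mp h0, Algebra.smul_def]
        exact hφ c (by rw [hφdef, h9, mul_inv_cancel_right₀ hy0, sub_self])
    set y' : riemannRochSpace (twoG P₀) :=
      ⟨y, RR.riemannRochSpace_mono (sub_le_self _ (setDiv_nonneg t)) hy⟩
    have hinf : {c : K | eval (b.equivFun (x - c • y')) p = 0}.Infinite := by
      intro hfin
      refine (Set.infinite_univ (α := Place K F)) (Set.Finite.subset (hBad.union
        (hfin.biUnion fun c _ => RR.finite_ord_ne_zero (K := K) (φ - algebraMap K F c)))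
          fun P _ => ?_)
      by_cases hP : P ∈ Bad
      · exact Or.inl hP
      refine Or.inr (Set.mem_biUnion (key P hP _ rfl) ?_)
      have hord : P.ord φ = 0 := by
        simp only [Bad, Set.mem_union, Set.mem_ofPred_eq, not_or, not_not] at hP
        exact hP.2
      have hφm : φ ∈ P.toValuationSubring := (mem_iff_ord_nonneg' P).mpr hord.ge
      have hz : valueAt P (φ - algebraMap K F (valueAt P φ)) = 0 := by
        rw [valueAt_sub P hφm (P.algebraMap_mem' _), valueAt_algebraMap, sub_self]
      exact ne_of_gt (((valueAt_eq_zero_iff P (sub_mem hφm (P.algebraMap_mem' _))).mp hz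
        ).resolve_left (hφ _))
    let pol : Polynomial K :=
      aeval (fun k => Polynomial.C (b.equivFun x k) - Polynomial.X * Polynomial.C (b.equivFun y' k)) p
    have hpol : ∀ c : K, pol.eval c = eval (b.equivFun (x - c • y')) p := fun c => by
      show Polynomial.aeval c (aeval _ p) = _
      rw [← AlgHom.comp_apply, comp_aeval, ← aeval_eq_eval]
      refine congrArg (fun v => aeval v p) (funext fun k => ?_)
      rw [map_sub b.equivFun, map_smul]
      simp only [Pi.sub_apply, Pi.smul_apply, smul_eq_mul, map_sub, map_mul, Polynomial.aeval_C,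
        Polynomial.aeval_X, Algebra.algebraMap_self, RingHom.id_apply]
    have hz : pol = 0 := Polynomial.eq_zero_of_infinite_isRoot pol
      (hinf.mono fun c hc => (hpol c).trans hc)
    have h0 := hpol 0
    rw [hz, Polynomial.eval_zero, zero_smul, sub_zero] at h0
    exact h0.symm

end FermatAgent.Torsion27
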