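import Fermat.Agent.Torsion27.Dim.Trdeg
import Fermat.Agent.Torsion27.Dim.Theta
import Mathlib.RingTheory.AlgebraicIndependent.TranscendenceBasis

/-!
# The cone of `Pic⁰` has dimension `g + 1`

The pairs of a point `psi y` of the cone and a function `h ∈ L(2g·P₀)` with
`div h + 2g·P₀ = E₁ + E₂`, `y = [g·P₀ - E₁]`, form a correspondence with finite fibres over the
good loci on both sides.
-/

set_option autoImplicit false

noncomputable section

open AlgebraicCurve FermatAgent.Curve MvPolynomial FermatAgent.MW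

namespace FermatAgent.Torsion27

universe u v

variable {K : Type u} {F : Type v} [Field K] [Field F] [Algebra K F] [IsAlgClosed K]
  [IsFunctionField1 K F]

/-- A linear form as a polynomial. -/
def linForm {σ : Type*} [Fintype σ] (Λ : σ → K) : MvPolynomial σ K := ∑ i, C (Λ i) * X i

omit [IsAlgClosed K] in
theorem eval_linForm {σ : Type*} [Fintype σ] (Λ x : σ → K) :
    eval x (linForm Λ) = ∑ i, Λ i * x i := by
  simp [linForm, map_sum]

/-- The class attached to a splitting. -/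
def splitDiv (P₀ : Place K F) (E₁ : Divisor K F) : Divisor K F :=
  Finsupp.single P₀ (genusFF K F : ℤ) - E₁

theorem degree_splitDiv (P₀ : Place K F) {E₁ : Divisor K F}
    (hd : Divisor.degree E₁ = genusFF K F) : Divisor.degree (splitDiv P₀ E₁) = 0 := by
  rw [splitDiv, map_sub, RR.degree_single, hd, sub_self]

theorem sub_eq_of_split {M : Divisor K F} {P₀ : Place K F} {h : F} {E₁ E₂ : Divisor K F}
    (he : E₁ + E₂ = twoG P₀ + RR.divFn h) :
    M - splitDiv P₀ E₁ = M + Finsupp.single P₀ (genusFF K F : ℤ) - E₂ + RR.divFn h := by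
  rw [eq_sub_of_add_eq' he, twoG, two_mul, Finsupp.single_add, splitDiv]
  abel

/-- A linear form on the cone detecting good splittings. -/
theorem exists_theta_form [CharZero K] {M : Divisor K F} (hM : IsBig M) (P₀ Pc : Place K F)
    {s : Finset (Place K F)} (hs : Large M s) :
    ∃ Λ : (Fin (rk M) → s) → K, ∀ (h : F), h ≠ 0 → ∀ (E₁ E₂ : Divisor K F),
      Divisor.degree E₁ = genusFF K F → E₁ + E₂ = twoG P₀ + RR.divFn h →
      (∑ Q, Λ Q * resTuple s (psiDiv M (splitDiv P₀ E₁)) Q ≠ 0 ↔ IsGood Pc E₁ E₂) := by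
  classical
  unfold Large at hs
  have hM' : 3 * (genusFF K F : ℤ) + 1 ≤ Divisor.degree M := hM
  set G := M + Finsupp.single P₀ (genusFF K F : ℤ) with hG
  have hdeg : Divisor.degree (G - thetaDiv Pc) = (rk M : ℤ) := by
    rw [map_sub, hG, map_add, RR.degree_single, degree_thetaDiv]
    unfold rk
    omega
  obtain ⟨t, -, htc, htp⟩ := exists_reduced_linearEquiv (D := G - thetaDiv Pc)
    (by rw [hdeg]; unfold rk; omega) Set.finite_empty
  rw [hdeg, Nat.cast_inj] at htc
  let eq : Fin (rk M) ≃ t := (Finset.equivFinOfCardEq htc).symm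
  set Q₀ : Fin (rk M) → Place K F := fun j => (eq j : Place K F)
  have hQ : ∀ P, P ∈ t ↔ ∃ j, Q₀ j = P := fun P =>
    ⟨fun hP => ⟨eq.symm ⟨P, hP⟩, by simp [Q₀]⟩, fun ⟨j, hj⟩ => hj ▸ (eq j).2⟩
  obtain ⟨Λ, hΛ⟩ := exists_extension (fewZeros_evSpace (M + M)) (s := s) (by rw [map_add]; omega) Q₀
  refine ⟨Λ, fun h hh E₁ E₂ hd he => ?_⟩
  have hD := degree_splitDiv P₀ hd
  show ∑ Q, Λ Q * psiDiv M (splitDiv P₀ E₁) (fun j => (Q j : Place K F)) ≠ 0 ↔ _
  rw [← hΛ _ (isSlice_psiDiv hM hD), psiDiv, Pi.mul_apply, mul_ne_zero_iff, Ne, Ne,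
    detL_eq_zero_iff (ell_add_eq_rk hM hD) hQ, detL_eq_zero_iff (ell_sub_eq_rk hM hD) hQ,
    not_not, not_not, IsGood]
  have hh' : RR.divFn h ∈ Divisor.principal (K := K) (F := F) :=
    RR.mem_principal_iff_divFn.mpr ⟨h, hh, rfl⟩
  have e1 : RR.ell (M + splitDiv P₀ E₁ - setDiv t) = RR.ell (thetaDiv Pc - E₁) :=
    RR.ell_eq_of_sub_mem_principal (by
      have e : M + splitDiv P₀ E₁ - setDiv t - (thetaDiv Pc - E₁) =
          -(setDiv t - (G - thetaDiv Pc)) := by rw [splitDiv, hG]; abel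
      rw [e]
      exact neg_mem htp)
  have e2 : RR.ell (M - splitDiv P₀ E₁ - setDiv t) = RR.ell (thetaDiv Pc - E₂) :=
    RR.ell_eq_of_sub_mem_principal (by
      have e : M - splitDiv P₀ E₁ - setDiv t - (thetaDiv Pc - E₂) =
          RR.divFn h - (setDiv t - (G - thetaDiv Pc)) := by
        rw [sub_eq_of_split he, hG]
        abel
      rw [e]
      exact sub_mem hh' htp)
  rw [e1, e2]

/-- The pairs `(x, h)` of the relation. -/
def pairSet (M : Divisor K F) (P₀ : Place K F) (s : Finset (Place K F)) :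
    Set ((Fin (rk M) → s) ⊕ s → K) :=
  {v | v ∘ Sum.inl ∈ imgSet M s ∧ ∃ w₁ : (Fin (rk M) → s) → K, w₁ ≠ 0 ∧
    ∃ w₂ : (Fin (rk M) → s) → K, w₂ ≠ 0 ∧ Sum.elim (Sum.elim v w₁) w₂ ∈ relSet M P₀ s}

theorem isAlg_pairSet [CharZero K] {M : Divisor K F} (hM : IsBig M) (P₀ : Place K F)
    {s : Finset (Place K F)} (hs : Large M s) : IsAlg (pairSet M P₀ s) := by
  have h1 := (isAlg_relSet M P₀ s).exists_ne_zero (σ := ((Fin (rk M) → s) ⊕ s) ⊕ (Fin (rk M) → s))
    fun a b c _ ⟨hx, hh, hw₁, ⟨hw₂, ha₂⟩, hrel⟩ => by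
      refine ⟨hx, hh, hw₁, ⟨isResSlice_smul hw₂ c, isAlt_smul ha₂ c⟩, fun Q Q' => ?_⟩
      have := hrel Q Q'
      simp only [Sum.elim_inl, Sum.elim_inr, Pi.smul_apply, smul_eq_mul] at this ⊢
      linear_combination c * this
  have h2 := h1.exists_ne_zero fun a b c _ ⟨w₂, hw₂0, hx, hh, ⟨hw₁, ha₁⟩, hw₂, hrel⟩ => by
      refine ⟨w₂, hw₂0, hx, hh, ⟨isResSlice_smul hw₁ c, isAlt_smul ha₁ c⟩, hw₂, fun Q Q' => ?_⟩
      have := hrel Q Q'
      simp only [Sum.elim_inl, Sum.elim_inr, Pi.smul_apply, smul_eq_mul] at this ⊢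
      linear_combination c * this
  exact ((isAlg_imgSet hM hs).comp Sum.inl).and h2

/-- Scaling of `h`. -/
theorem smul_inr_mem_pairSet {M : Divisor K F} {P₀ : Place K F} {s : Finset (Place K F)}
    {v : (Fin (rk M) → s) ⊕ s → K} (hv : v ∈ pairSet M P₀ s) (c : K) :
    Sum.elim (v ∘ Sum.inl) (c • (v ∘ Sum.inr)) ∈ pairSet M P₀ s := by
  obtain ⟨hx, w₁, hw₁, w₂, hw₂, hxs, hh, hs₁, hs₂, hrel⟩ := hv
  refine ⟨hx, w₁, hw₁, w₂, hw₂, hxs, Submodule.smul_mem _ c hh, hs₁, hs₂, fun Q Q' => ?_⟩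
  have := hrel Q Q'
  simp only [Sum.elim_inl, Sum.elim_inr, Pi.smul_apply, smul_eq_mul, Function.comp_apply,
    Finset.prod_mul_distrib, Finset.prod_const] at this ⊢
  linear_combination c ^ (Finset.univ : Finset (Fin (rk M))).card * this

/-- The point of a splitting. -/
theorem mem_pairSet [CharZero K] {M : Divisor K F} (hM : IsBig M) {P₀ : Place K F}
    {s : Finset (Place K F)} (hs : Large M s) {h : riemannRochSpace (twoG P₀)} (h0 : (h : F) ≠ 0)
    {E₁ E₂ : Divisor K F} (hE₁ : 0 ≤ E₁) (hE₂ : 0 ≤ E₂) (hd₁ : Divisor.degree E₁ = genusFF K F)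
    (hd₂ : Divisor.degree E₂ = genusFF K F) (he : E₁ + E₂ = twoG P₀ + RR.divFn (h : F)) (κ : K) :
    Sum.elim (κ • resTuple s (psiDiv M (splitDiv P₀ E₁))) (resLin s (evLin (twoG P₀) h)) ∈
      pairSet M P₀ s := by
  classical
  unfold Large at hs
  have hM' : 3 * (genusFF K F : ℤ) + 1 ≤ Divisor.degree M := hM
  set G := M + Finsupp.single P₀ (genusFF K F : ℤ) with hGdef
  have hD := degree_splitDiv P₀ hd₁
  have hl : ∀ {E : Divisor K F}, Divisor.degree E = genusFF K F → RR.ell (G - E) = rk M :=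
    fun {E} hE => by
      rw [show G - E = M + (Finsupp.single P₀ (genusFF K F : ℤ) - E) by simp only [G]; abel]
      exact ell_add_eq_rk hM (by rw [map_sub, RR.degree_single, hE, sub_self])
  obtain ⟨c, hc0, hc⟩ := sameLine_detL_sub_divFn (hl hd₂) (inv_ne_zero h0)
  have hinv : RR.divFn (K := K) (h : F)⁻¹ = -RR.divFn (h : F) := Finsupp.ext fun v => by
    simp [RR.divFn_apply, v.ord_inv]
  rw [hinv, sub_neg_eq_add] at hc
  set W : Divisor K F → (Fin (rk M) → Place K F) → K :=
    fun E Q => (∏ j, chi E (Q j)) * detL (rk M) (G - E) Q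
  have hkey : ∀ Q, psiDiv M (splitDiv P₀ E₁) Q * (∏ j, evLin (twoG P₀) h (Q j)) =
      c * (W E₁ Q * W E₂ Q) := by
    intro Q
    have e1 : M + splitDiv P₀ E₁ = G - E₁ := by simp only [G, splitDiv]; abel
    have e3 : (∏ j, evLin (twoG P₀) h (Q j)) =
        (∏ j, chi E₁ (Q j)) * (∏ j, chi E₂ (Q j)) * ∏ j, unitPart (h : F) (Q j) := by
      rw [← Finset.prod_mul_distrib, ← Finset.prod_mul_distrib]
      exact Finset.prod_congr rfl fun j _ => evLin_eq_chi_mul_unitPart h0 hE₁ hE₂ he _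
    have e4 : (∏ j, unitPart (h : F) (Q j)) * (∏ j, unitPart (h : F)⁻¹ (Q j)) = 1 := by
      rw [← Finset.prod_mul_distrib]
      exact Finset.prod_eq_one fun j _ => unitPart_mul_unitPart_inv h0 _
    rw [psiDiv, e1, sub_eq_of_split he, ← hGdef, Pi.mul_apply, congrFun hc Q, Pi.smul_apply,
      smul_eq_mul, e3]
    simp only [W]
    linear_combination (c * (∏ j, chi E₁ (Q j)) * (∏ j, chi E₂ (Q j)) *
      detL (rk M) (G - E₁) Q * detL (rk M) (G - E₂) Q) * e4
  have hGc : (Divisor.degree G).toNat < s.card := by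
    rw [map_add, RR.degree_single]; omega
  have hW : ∀ {E : Divisor K F}, 0 ≤ E → Divisor.degree E = genusFF K F →
      resTuple s (W E) ≠ 0 ∧ IsResSlice (evSpace G) s (resTuple s (W E)) ∧
        IsAlt (resTuple s (W E)) := fun {E} hE hd => by
    refine ⟨fun hz => chiDet_ne_zero (hl hd) ((resTuple_eq_resTuple_iff (fewZeros_evSpace G)
      (detFun_subEvLin hE (hl hd)).1 (sliceSpace _ _).zero_mem hGc).mp hz),
      isResSlice_resTuple (detFun_subEvLin hE (hl hd)).1 s, ?_⟩
    obtain ⟨h1, h2⟩ := (detFun_subEvLin hE (hl hd)).2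
    exact ⟨fun Q π => h1 (fun j => (Q j : Place K F)) π,
      fun Q i j hij hQ => h2 _ i j hij (congrArg Subtype.val hQ)⟩
  refine ⟨?_, _, (hW hE₁ hd₁).1, _, (hW hE₂ hd₂).1, ?_, ⟨_, evLin_mem _ h, rfl⟩,
    (hW hE₁ hd₁).2, (hW hE₂ hd₂).2, fun Q Q' => ?_⟩
  · obtain ⟨e, -, he'⟩ := (sameLine_psi_mk hM ⟨_, Divisor.mem_degZero.mpr hD⟩).symm
    refine ⟨κ * e, Pic0.mk ⟨_, Divisor.mem_degZero.mpr hD⟩, ?_⟩
    rw [Sum.elim_comp_inl, show psiDiv M (splitDiv P₀ E₁) = e • psi M _ from he', resTuple_smul,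
      smul_smul]
  · exact isResSlice_smul (isResSlice_resTuple (isSlice_psiDiv hM hD) s) κ
  · show κ * psiDiv M (splitDiv P₀ E₁) (fun j => (Q j : Place K F)) *
        (∏ j, evLin (twoG P₀) h (Q j)) *
          (W E₁ (fun j => (Q' j : Place K F)) * W E₂ (fun j => (Q' j : Place K F))) =
      κ * psiDiv M (splitDiv P₀ E₁) (fun j => (Q' j : Place K F)) *
        (∏ j, evLin (twoG P₀) h (Q' j)) *
          (W E₁ (fun j => (Q j : Place K F)) * W E₂ (fun j => (Q j : Place K F)))
    linear_combination (κ * (W E₁ (fun j => (Q' j : Place K F)) *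
      W E₂ (fun j => (Q' j : Place K F)))) * hkey (fun j => (Q j : Place K F)) -
      (κ * (W E₁ (fun j => (Q j : Place K F)) * W E₂ (fun j => (Q j : Place K F)))) *
        hkey (fun j => (Q' j : Place K F))

/-- The splitting of a pair. -/
theorem exists_split [CharZero K] {M : Divisor K F} (hM : IsBig M) {P₀ : Place K F}
    {s : Finset (Place K F)} (hs : Large M s) {v : (Fin (rk M) → s) ⊕ s → K}
    (hv : v ∈ pairSet M P₀ s) {h : riemannRochSpace (twoG P₀)}
    (hh : v ∘ Sum.inr = resLin s (evLin (twoG P₀) h)) (h0 : (h : F) ≠ 0)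
    (hx : v ∘ Sum.inl ≠ 0) :
    ∃ E₁ E₂ : Divisor K F, 0 ≤ E₁ ∧ 0 ≤ E₂ ∧ Divisor.degree E₁ = genusFF K F ∧
      Divisor.degree E₂ = genusFF K F ∧ E₁ + E₂ = twoG P₀ + RR.divFn (h : F) ∧
      ∃ κ : K, κ ≠ 0 ∧ v ∘ Sum.inl = κ • resTuple s (psiDiv M (splitDiv P₀ E₁)) := by
  classical
  obtain ⟨-, w₁, hw₁0, w₂, hw₂0, hxs, -, ⟨hw₁, ha₁⟩, ⟨hw₂, ha₂⟩, hrel⟩ := hv
  unfold Large at hs
  have hM' : 3 * (genusFF K F : ℤ) + 1 ≤ Divisor.degree M := hM
  set G := M + Finsupp.single P₀ (genusFF K F : ℤ) with hGdef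
  have hG : (Divisor.degree G).toNat < s.card := by
    rw [map_add, RR.degree_single]; omega
  have hMM : (Divisor.degree (M + M)).toNat < s.card := by rw [map_add]; omega
  obtain ⟨q, hq, hqx⟩ := exists_isSlice_extension (fewZeros_evSpace (M + M)) hMM hxs
  obtain ⟨W₁, hW₁, e₁⟩ := exists_isSlice_extension (fewZeros_evSpace G) hG hw₁
  obtain ⟨W₂, hW₂, e₂⟩ := exists_isSlice_extension (fewZeros_evSpace G) hG hw₂
  replace hqx : resTuple s q = v ∘ Sum.inl := hqx
  replace e₁ : resTuple s W₁ = w₁ := e₁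
  replace e₂ : resTuple s W₂ = w₂ := e₂
  replace ha₁ : IsAlt w₁ := ha₁
  replace ha₂ : IsAlt w₂ := ha₂
  have hq0 : q ≠ 0 := fun hz => hx (by rw [← hqx, hz]; rfl)
  obtain ⟨m, hm⟩ : ∃ m, rk M = m + 1 := ⟨rk M - 1, by unfold rk; omega⟩
  have hrk : (rk M : ℤ) = Divisor.degree M + 1 - genusFF K F := by unfold rk; omega
  have hrel' : ∀ Q Q' : Fin (rk M) → Place K F, (∀ j, Q j ∈ s) → (∀ j, Q' j ∈ s) →
      q Q * (∏ j, evLin (twoG P₀) h (Q j)) * (W₁ Q' * W₂ Q') =
        q Q' * (∏ j, evLin (twoG P₀) h (Q' j)) * (W₁ Q * W₂ Q) := fun Q Q' hQ hQ' => by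
    have := hrel (fun j => ⟨Q j, hQ j⟩) (fun j => ⟨Q' j, hQ' j⟩)
    simp only [Sum.elim_inl, Sum.elim_inr] at this
    have eh : ∀ z : s, v (Sum.inr z) = evLin (twoG P₀) h z := fun z => congrFun hh z
    have ex : ∀ R : Fin (rk M) → s, v (Sum.inl R) = q (fun j => (R j : Place K F)) :=
      fun R => (congrFun hqx R).symm
    simp only [eh, ex] at this
    rw [← e₁, ← e₂] at this
    exact this
  have hdeg : Divisor.degree G = ((Divisor.degree M).toNat : ℤ) + (genusFF K F : ℕ) := by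
    rw [map_add, RR.degree_single]; omega
  suffices H : ∀ r, r = m + 1 → ∀ (q W₁ W₂ : (Fin r → Place K F) → K),
      IsSlice (evSpace (M + M)) q → q ≠ 0 → IsSlice (evSpace G) W₁ → IsAlt W₁ → W₁ ≠ 0 →
      IsSlice (evSpace G) W₂ → IsAlt W₂ → W₂ ≠ 0 →
      (∀ Q Q' : Fin r → Place K F, (∀ j, Q j ∈ s) → (∀ j, Q' j ∈ s) →
        q Q * (∏ j, evLin (twoG P₀) h (Q j)) * (W₁ Q' * W₂ Q') =
          q Q' * (∏ j, evLin (twoG P₀) h (Q' j)) * (W₁ Q * W₂ Q)) →
      ∃ E₁ E₂ : Divisor K F, 0 ≤ E₁ ∧ 0 ≤ E₂ ∧ Divisor.degree E₁ = genusFF K F ∧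
        Divisor.degree E₂ = genusFF K F ∧ E₁ + E₂ = twoG P₀ + RR.divFn (h : F) ∧
        SameLine q (detL r (G - E₁) * detL r (G - E₂ + RR.divFn (h : F))) by
    obtain ⟨E₁, E₂, h1, h2, h3, h4, h5, κ, hκ, hl⟩ := H _ hm q W₁ W₂ hq hq0 hW₁
      (isAlt_of_resTuple (fewZeros_evSpace G) hG hW₁ (e₁.symm ▸ ha₁))
      (fun hz => hw₁0 (by rw [← e₁, hz]; rfl)) hW₂
      (isAlt_of_resTuple (fewZeros_evSpace G) hG hW₂ (e₂.symm ▸ ha₂))
      (fun hz => hw₂0 (by rw [← e₂, hz]; rfl)) hrel'
    refine ⟨E₁, E₂, h1, h2, h3, h4, h5, κ, hκ, ?_⟩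
    rw [← hqx, ← resTuple_smul, hl, psiDiv, sub_eq_of_split h5, splitDiv, hGdef, add_sub_assoc]
  rintro r rfl q W₁ W₂ hq hq0 hW₁ hA₁ hW₁0 hW₂ hA₂ hW₂0 hrel
  exact recognition (d := (Divisor.degree M).toNat) (n := genusFF K F) (Mt := M + M)
    (H := twoG P₀) (by rw [hGdef, twoG, two_mul, Finsupp.single_add]; abel)
    hdeg hdeg (degree_twoG P₀) (by omega) (by omega) hq hq0 hW₁ hA₁ hW₁0 hW₂ hA₂ hW₂0 h0
    (s := s) (by rw [map_add, map_add, degree_twoG]; omega) hrel

/-- Every point of the cone has a splitting. -/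
theorem exists_split_of_mem [CharZero K] {M : Divisor K F} (hM : IsBig M) (P₀ : Place K F)
    {s : Finset (Place K F)} (hs : Large M s) {x : (Fin (rk M) → s) → K} (hx : x ∈ imgSet M s) :
    ∃ h : riemannRochSpace (twoG P₀), (h : F) ≠ 0 ∧
      Sum.elim x (resLin s (evLin (twoG P₀) h)) ∈ pairSet M P₀ s := by
  have hx' := hx
  rw [imgSet_eq_exists hM P₀ hs] at hx'
  obtain ⟨hh, hh0, w₁, hw₁, w₂, hw₂, hrel⟩ := hx'
  obtain ⟨u, ⟨h, rfl⟩, hu⟩ := hrel.2.1
  replace hu : resLin s (evLin (twoG P₀) h) = hh := hu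
  refine ⟨h, fun h0 => hh0 ?_, ?_⟩
  · rw [← hu, show h = 0 from Subtype.ext h0]
    exact (congrArg _ (map_zero (evLin (twoG P₀)))).trans (map_zero _)
  · refine ⟨by rwa [Sum.elim_comp_inl], w₁, hw₁, w₂, hw₂, ?_⟩
    rw [hu]
    exact hrel

/-- **The dimension of the cone.** -/
theorem trdeg_coordRing_imgSet [CharZero K] {M : Divisor K F} (hM : IsBig M)
    {s : Finset (Place K F)} (hs : Large M s) :
    Algebra.trdeg K (CoordRing (imgSet M s)) = (genusFF K F + 1 : ℕ) := by
  classical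
  have := RR.infinite_place (K := K) (F := F)
  set g := genusFF K F with hg
  set P₀ := Classical.arbitrary (Place K F)
  have hM' : 3 * (g : ℤ) + 1 ≤ Divisor.degree M := hM
  have hprime := isPrime_vanishingIdeal_imgSet hM hs
  obtain ⟨Λ, hΛ⟩ := exists_theta_form hM P₀ P₀ hs
  have hsH : (Divisor.degree (twoG P₀)).toNat < s.card := by
    unfold Large at hs
    rw [degree_twoG]
    omega
  let b := Module.finBasisOfFinrankEq K (riemannRochSpace (twoG P₀))
    (show Module.finrank K (riemannRochSpace (twoG P₀)) = g + 1 from ell_twoG P₀)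
  let emb : riemannRochSpace (twoG P₀) →ₗ[K] (s → K) := (resLin s).comp (evLin (twoG P₀))
  have hemb : Function.Injective emb := (injective_iff_map_eq_zero emb).mpr fun h hh => by
    by_contra hne
    have := fewZeros_evSpace (twoG P₀) _ (evLin_mem _ h)
      (fun hz => hne (evLin_injective _ (hz.trans (map_zero _).symm))) s
      fun z hz => congrFun hh ⟨z, hz⟩
    omega
  obtain ⟨L, hL⟩ := LinearMap.exists_leftInverse_of_injective emb (LinearMap.ker_eq_bot.mpr hemb)
  let lam : (s → K) →ₗ[K] (Fin (g + 1) → K) := b.equivFun.toLinearMap.comp L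
  have hlam : ∀ h, lam (emb h) = b.equivFun h := fun h => by
    show b.equivFun (L (emb h)) = _
    rw [← LinearMap.comp_apply, hL]
    rfl
  set Z := imgSet M s
  set Y := pairSet M P₀ s
  have hY := isAlg_pairSet hM P₀ hs
  have hinr : ∀ y ∈ Y, ∃ h, y ∘ Sum.inr = emb h := fun y hy => by
    obtain ⟨-, w₁, -, w₂, -, hxh⟩ := hy
    obtain ⟨u, ⟨h, rfl⟩, hu⟩ := hxh.2.1
    exact ⟨h, hu.symm⟩
  -- the functions on the correspondence
  let ι₀ : MvPolynomial (Fin (rk M) → s) K →ₐ[K] CoordRing Y :=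
    aeval fun i => Ideal.Quotient.mk (vanishingIdeal K Y) (X (Sum.inl i))
  have hι₀ : ∀ q y (hy : y ∈ Y), evalAt hy (ι₀ q) = eval (y ∘ Sum.inl) q := fun q y hy => by
    rw [← AlgHom.comp_apply, comp_aeval, ← aeval_eq_eval]
    exact congrArg (fun w => aeval w q) (funext fun i => (evalAt_mk hy _).trans (eval_X _))
  let ι : CoordRing Z →ₐ[K] CoordRing Y := Ideal.Quotient.liftₐ _ ι₀ fun q hq =>
    coordRing_ext fun y hy => by
      rw [hι₀, map_zero]
      simpa [aeval_eq_eval] using hq _ hy.1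
  let hc : Fin (g + 1) → CoordRing Y := fun k =>
    Ideal.Quotient.mk _ (∑ z : s, C (lam (Pi.single z 1) k) * X (Sum.inr z))
  have hhc : ∀ k y (hy : y ∈ Y), evalAt hy (hc k) = lam (y ∘ Sum.inr) k := fun k y hy => by
    rw [evalAt_mk, map_sum, LinearMap.pi_apply_eq_sum_univ lam (y ∘ Sum.inr), Finset.sum_apply]
    refine Finset.sum_congr rfl fun z _ => ?_
    rw [map_mul, eval_C, eval_X, Pi.smul_apply, smul_eq_mul, mul_comm]
    congr 1
    exact congrArg (fun w => lam w k) (funext fun z' => by simp [Pi.single_apply, eq_comm])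
  let eA : CoordRing Z := Ideal.Quotient.mk _ (linForm Λ)
  let : Algebra (CoordRing Z) (CoordRing Y) := ι.toAlgebra
  have : IsScalarTower K (CoordRing Z) (CoordRing Y) := IsScalarTower.of_algHom ι
  let jk : Fin (g + 1) → Polynomial (CoordRing Z) →ₐ[K] CoordRing Y := fun k =>
    (Polynomial.aeval (hc k)).restrictScalars K
  have hjkC : ∀ k a, jk k (Polynomial.C a) = ι a := fun k a => Polynomial.aeval_C _ a
  have hjkX : ∀ k, jk k Polynomial.X = hc k := fun k => Polynomial.aeval_X _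
  let σB := ULift.{v} (Option (Fin (g + 1)))
  let ψ : MvPolynomial σB K →ₐ[K] CoordRing Y := aeval fun i => i.down.elim (ι eA) hc
  have hψX : ∀ i, ψ (X (ULift.up i)) = i.elim (ι eA) hc := fun i => aeval_X _ _
  have heA : ∀ y (hy : y ∈ Y), evalAt hy (ι eA) = ∑ Q, Λ Q * y (Sum.inl Q) := fun y hy => by
    show evalAt hy (ι₀ (linForm Λ)) = _
    rw [hι₀, eval_linForm]
    rfl
  -- points of the algebra
  have hpts : ∀ φ : CoordRing Y →ₐ[K] K, ∃ y, ∃ hy : y ∈ Y, φ = evalAt hy := fun φ => by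
    obtain ⟨y, hy, hyp⟩ := exists_point_of_algHom hY φ
    refine ⟨y, hy, AlgHom.ext fun r => ?_⟩
    obtain ⟨q, rfl⟩ := Ideal.Quotient.mk_surjective r
    rw [hyp, evalAt_mk]
  choose pt hpt hpteq using hpts
  have hptinj : Function.Injective pt := fun φ φ' h => by
    rw [hpteq φ, hpteq φ']
    refine AlgHom.ext fun r => ?_
    obtain ⟨q, rfl⟩ := Ideal.Quotient.mk_surjective r
    rw [evalAt_mk, evalAt_mk, h]
  -- the pairs over a good point
  have huniq : ∀ y ∈ Y, ∀ y' ∈ Y, y ∘ Sum.inl = y' ∘ Sum.inl →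
      ∑ Q, Λ Q * y (Sum.inl Q) ≠ 0 →
      ∀ k, lam (y ∘ Sum.inr) k ≠ 0 → lam (y' ∘ Sum.inr) k = lam (y ∘ Sum.inr) k → y = y' := by
    intro y hy y' hy' hxx he k hk hk'
    obtain ⟨h, hh⟩ := hinr y hy
    obtain ⟨h', hh'⟩ := hinr y' hy'
    rw [hh, hlam] at hk hk'
    rw [hh', hlam] at hk'
    have h0 : (h : F) ≠ 0 := fun hz => hk (by rw [show h = 0 from Subtype.ext hz, map_zero]; rfl)
    have h0' : (h' : F) ≠ 0 := fun hz => hk (by
      rw [← hk', show h' = 0 from Subtype.ext hz, map_zero]; rfl)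
    have hx : y ∘ Sum.inl ≠ 0 := fun hz => he (Finset.sum_eq_zero fun Q _ => by
      rw [show y (Sum.inl Q) = 0 from congrFun hz Q, mul_zero])
    obtain ⟨E₁, E₂, a1, a2, a3, a4, a5, κ, hκ, hxκ⟩ := exists_split hM hs hy hh h0 hx
    obtain ⟨E₁', E₂', b1, b2, b3, b4, b5, κ', hκ', hxκ'⟩ :=
      exists_split hM hs hy' hh' h0' (hxx ▸ hx)
    have hgood : IsGood P₀ E₁ E₂ := (hΛ _ h0 E₁ E₂ a3 a5).mp fun hz => he (by
      have e : ∀ Q, y (Sum.inl Q) = κ * resTuple s (psiDiv M (splitDiv P₀ E₁)) Q :=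
        fun Q => congrFun hxκ Q
      simp only [e, mul_left_comm _ κ, ← Finset.mul_sum, hz, mul_zero])
    set D : Divisor.degZero (K := K) (F := F) := ⟨_, Divisor.mem_degZero.mpr (degree_splitDiv P₀ a3)⟩
    set D' : Divisor.degZero (K := K) (F := F) := ⟨_, Divisor.mem_degZero.mpr (degree_splitDiv P₀ b3)⟩
    have hline : SameLine (coord M s (Pic0.mk D)) (coord M s (Pic0.mk D')) := by
      refine ((sameLine_psi_mk hM D).comp _).trans (SameLine.trans ?_
        (((sameLine_psi_mk hM D').comp _).symm))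
      exact ⟨κ⁻¹ * κ', mul_ne_zero (inv_ne_zero hκ) hκ', by
        rw [← smul_smul, eq_inv_smul_iff₀ hκ]
        exact hxκ.symm.trans (hxx.trans hxκ')⟩
    obtain ⟨c, hc0, hcl⟩ := hline
    have hcl' := eq_or_eq_neg_of_smul_coord hM hs (one_ne_zero (α := K)) (c' := c)
      ((one_smul K _).trans hcl)
    have hsum : E₁' + E₂' = E₁ + E₂ := by
      refine add_eq_of_class h0 h0' a1 a2 b1 b2 a3 a4 a5 b5 hgood ?_
      rcases hcl' with hD | hD
      · refine Or.inl ?_
        have h1 := sub_mem_principal_of_mk_eq hD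
        rwa [show (D : Divisor K F) - D' = E₁' - E₁ by
          show splitDiv P₀ E₁ - splitDiv P₀ E₁' = _
          simp only [splitDiv]; abel] at h1
      · refine Or.inr ?_
        have h1 := sub_mem_principal_of_mk_eq (D' := -D') hD
        rw [show (D : Divisor K F) - ((-D' : Divisor.degZero (K := K) (F := F)) : Divisor K F) =
          -(E₁' + E₁ - twoG P₀) by
            show splitDiv P₀ E₁ - -splitDiv P₀ E₁' = _
            rw [twoG, two_mul, Finsupp.single_add]
            simp only [splitDiv]; abel] at h1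
        simpa using neg_mem h1
    obtain ⟨d, hd⟩ := exists_eq_smul_of_divFn_eq (K := K) h0 h0'
      (add_left_cancel (a5.symm.trans (hsum.symm.trans b5)))
    have hdh : h' = d • h := Subtype.ext (by
      rw [← hd]
      exact (Algebra.smul_def d (h : F)).symm)
    have hd1 : d = 1 := by
      rw [hdh, map_smul, Pi.smul_apply, smul_eq_mul] at hk'
      exact mul_right_cancel₀ hk (hk'.trans (one_mul _).symm)
    funext i
    rcases i with Q | z
    · exact congrFun hxx Q
    · have h1 := congrFun hh z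
      have h2 := congrFun hh' z
      rw [hdh, hd1, one_smul] at h2
      exact h1.trans h2.symm
  -- non-vanishing of the linear form
  have hgoodexists : ∃ x ∈ Z, ∑ Q, Λ Q * x Q ≠ 0 := by
    by_contra hall
    push Not at hall
    have h1 := eval_eq_zero_of_good P₀ P₀ b 1 (fun h h0 E₁ E₂ a1 a2 a3 a4 a5 hgd => by
      have hmem := mem_pairSet hM hs h0 a1 a2 a3 a4 a5 1
      have := hall _ hmem.1
      rw [Sum.elim_comp_inl, one_smul] at this
      exact absurd this ((hΛ _ h0 E₁ E₂ a3 a5).mpr hgd)) 0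
    simp at h1
  have heA0 : eA ≠ 0 := fun hz => by
    obtain ⟨x, hx, hne⟩ := hgoodexists
    refine hne ?_
    have := congrArg (evalAt hx) hz
    rwa [evalAt_mk, map_zero, eval_linForm] at this
  -- the two degrees
  have hB : Algebra.trdeg K (MvPolynomial σB K) = ((g + 2 : ℕ) : Cardinal) := by
    rw [MvPolynomial.trdeg_of_isDomain]
    simp [σB, Cardinal.mk_fintype]
    norm_cast
  have hA : Algebra.trdeg K (Polynomial (CoordRing Z)) = Algebra.trdeg K (CoordRing Z) + 1 := by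
    rw [← trdeg_add_eq K (CoordRing Z) (A := Polynomial (CoordRing Z)), Polynomial.trdeg_of_isDomain]
  have : Algebra.FiniteType K (Polynomial (CoordRing Z)) :=
    Algebra.FiniteType.trans (S := CoordRing Z) inferInstance inferInstance
  have hle : Algebra.trdeg K (Polynomial (CoordRing Z)) ≤ Algebra.trdeg K (MvPolynomial σB K) := by
    obtain ⟨k, hk⟩ : ∃ k, Function.Injective (jk k) := by
      by_contra hall
      push Not at hall
      have hp : ∀ k, ∃ p : Polynomial (CoordRing Z), p ≠ 0 ∧ jk k p = 0 := fun k => by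
        by_contra hno
        push Not at hno
        exact hall k ((injective_iff_map_eq_zero _).mpr fun p hp => by
          by_contra hne
          exact hno p hne hp)
      choose p hp0 hp using hp
      have hz : eA * ∏ k, (p k).leadingCoeff = 0 := coordRing_ext fun x hx => by
        rw [map_zero, map_mul, map_prod]
        by_cases hex : evalAt hx eA = 0
        · rw [hex, zero_mul]
        refine mul_eq_zero_of_right _ ?_
        obtain ⟨h, h0, hmem⟩ := exists_split_of_mem hM P₀ hs hx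
        obtain ⟨k, hk⟩ : ∃ k, b.equivFun h k ≠ 0 := by
          by_contra hno
          push Not at hno
          exact h0 (congrArg Subtype.val (b.equivFun.injective
            ((funext hno).trans (map_zero b.equivFun).symm)))
        refine Finset.prod_eq_zero (Finset.mem_univ k) ?_
        let pk : Polynomial K := (p k).map (evalAt hx).toRingHom
        have hroot : ∀ c : K, pk.IsRoot (c * b.equivFun h k) := fun c => by
          have hmem' := smul_inr_mem_pairSet hmem c
          have h1 := congrArg (evalAt hmem') (hp k)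
          rw [map_zero] at h1
          show pk.eval _ = 0
          rw [← h1, Polynomial.eval_map, show c * b.equivFun h k = evalAt hmem' (hc k) by
            rw [hhc, Sum.elim_comp_inr, Sum.elim_comp_inr, map_smul, ← hlam]
            rfl]
          show _ = evalAt hmem' (Polynomial.aeval (hc k) (p k))
          rw [Polynomial.aeval_def]
          refine Eq.trans ?_ (Polynomial.hom_eval₂ _ _ (evalAt hmem').toRingHom _).symm
          congr 1
          refine RingHom.ext fun a => ?_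
          obtain ⟨q, rfl⟩ := Ideal.Quotient.mk_surjective a
          show evalAt hx (Ideal.Quotient.mk _ q) = evalAt hmem' (ι₀ q)
          rw [hι₀, evalAt_mk, Sum.elim_comp_inl, Sum.elim_comp_inl]
        have hpk : pk = 0 := Polynomial.eq_zero_of_infinite_isRoot pk
          ((Set.infinite_univ (α := K)).mono fun c _ => by
            have := hroot (c * (b.equivFun h k)⁻¹)
            rwa [inv_mul_cancel_right₀ hk] at this)
        have := congrArg (fun f : Polynomial K => f.coeff (p k).natDegree) hpk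
        simp only [pk, Polynomial.coeff_map, Polynomial.coeff_zero] at this
        exact this
      rcases mul_eq_zero.mp hz with h | h
      · exact heA0 h
      · obtain ⟨k, -, hk⟩ := Finset.prod_eq_zero_iff.mp h
        exact hp0 k (Polynomial.leadingCoeff_eq_zero.mp hk)
    refine trdeg_le_of_finite_fibres (jk k) hk ψ (a := Polynomial.C eA * Polynomial.X)
      (e := X (ULift.up none) * X (ULift.up (some k)))
      (mul_ne_zero (Polynomial.C_ne_zero.mpr heA0) Polynomial.X_ne_zero)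
      (by rw [map_mul, map_mul, hψX, hψX, hjkC, hjkX]; rfl) fun χ hχ => ?_
    rw [map_mul] at hχ
    obtain ⟨ht0, hu0⟩ := mul_ne_zero_iff.mp hχ
    set t := χ (X (ULift.up none))
    set u : Fin (g + 1) → K := fun k => χ (X (ULift.up (some k)))
    set h : riemannRochSpace (twoG P₀) := b.equivFun.symm u
    have h0 : (h : F) ≠ 0 := fun hz => hu0 (by
      have := congrArg b.equivFun (show h = 0 from Subtype.ext hz)
      rw [LinearEquiv.apply_symm_apply, map_zero] at this
      exact congrFun this k)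
    have hle : ∀ v, 0 ≤ (twoG P₀ + RR.divFn (K := K) (h : F) : Divisor K F) v := fun v => by
      have := (mem_riemannRochSpace_iff.mp h.2 v).resolve_left h0
      rw [Finsupp.add_apply, RR.divFn_apply]
      omega
    have : LocallyFiniteOrder (Divisor K F) := Finsupp.instLocallyFiniteOrder
    refine (((Set.finite_Icc (0 : Divisor K F) (twoG P₀ + RR.divFn (h : F))).image fun E₁ =>
      Sum.elim ((t / ∑ Q, Λ Q * resTuple s (psiDiv M (splitDiv P₀ E₁)) Q) •
        resTuple s (psiDiv M (splitDiv P₀ E₁))) (emb h)).preimage hptinj.injOn).subset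
      fun φ hφ => ?_
    have ht : ∑ Q, Λ Q * pt φ (Sum.inl Q) = t := by
      rw [← heA _ (hpt φ), ← hpteq φ]
      have := hφ (X (ULift.up none))
      rwa [hψX] at this
    have hu : ∀ k, lam (pt φ ∘ Sum.inr) k = u k := fun k => by
      rw [← hhc k _ (hpt φ), ← hpteq φ]
      have := hφ (X (ULift.up (some k)))
      rwa [hψX] at this
    obtain ⟨h', hh'⟩ := hinr _ (hpt φ)
    obtain rfl : h' = h := b.equivFun.injective (by
      rw [LinearEquiv.apply_symm_apply, ← hlam, ← hh']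
      exact funext hu)
    obtain ⟨E₁, E₂, a1, a2, a3, a4, a5, κ, hκ, hxκ⟩ := exists_split hM hs (hpt φ) hh' h0
      (fun hz => ht0 (by
        rw [← ht]
        exact Finset.sum_eq_zero fun Q _ => by
          rw [show pt φ (Sum.inl Q) = 0 from congrFun hz Q, mul_zero]))
    refine ⟨E₁, ⟨a1, ?_⟩, ?_⟩
    · rw [← a5]
      exact le_add_of_nonneg_right a2
    have e : ∀ Q, pt φ (Sum.inl Q) = κ * resTuple s (psiDiv M (splitDiv P₀ E₁)) Q :=
      fun Q => congrFun hxκ Q
    simp only [e, mul_left_comm _ κ, ← Finset.mul_sum] at ht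
    funext i
    rcases i with Q | z
    · show t / _ * _ = pt φ (Sum.inl Q)
      rw [e, ← ht, mul_div_cancel_right₀ _ fun hz => ht0 (by rw [← ht, hz, mul_zero])]
    · exact (congrFun hh' z).symm
  have hge : Algebra.trdeg K (MvPolynomial σB K) ≤ Algebra.trdeg K (Polynomial (CoordRing Z)) := by
    have hψinj : Function.Injective ψ := (injective_iff_map_eq_zero ψ).mpr fun p hp => by
      let pe : K → MvPolynomial (Fin (g + 1)) K := fun τ =>
        aeval (fun i : σB => i.down.elim (C τ) X) p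
      have hpe : ∀ τ (w : Fin (g + 1) → K),
          eval w (pe τ) = eval (fun i : σB => i.down.elim τ w) p := fun τ w => by
        simp only [pe, ← aeval_eq_eval, ← AlgHom.comp_apply, comp_aeval]
        refine congrArg (fun f => aeval f p) (funext fun i => ?_)
        rcases i with ⟨_ | k⟩ <;> simp
      have hall : p * X (ULift.up none) = 0 := MvPolynomial.funext fun w => by
        rw [map_zero, map_mul, eval_X]
        by_cases hw : w (ULift.up none) = 0
        · rw [hw, mul_zero]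
        refine mul_eq_zero_of_left ?_ _
        set τ := w (ULift.up none)
        set u : Fin (g + 1) → K := fun k => w (ULift.up (some k))
        have hwe : w = fun i : σB => i.down.elim τ u := funext fun i => by
          rcases i with ⟨_ | k⟩ <;> rfl
        rw [hwe, ← hpe, ← LinearEquiv.apply_symm_apply b.equivFun u]
        refine eval_eq_zero_of_good P₀ P₀ b (pe τ) (fun h h0 E₁ E₂ a1 a2 a3 a4 a5 hgd => ?_) _
        set e₀ := ∑ Q, Λ Q * resTuple s (psiDiv M (splitDiv P₀ E₁)) Q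
        have he₀ : e₀ ≠ 0 := (hΛ _ h0 E₁ E₂ a3 a5).mpr hgd
        have hmem := mem_pairSet hM hs h0 a1 a2 a3 a4 a5 (τ / e₀)
        have h1 := congrArg (evalAt hmem) hp
        rw [map_zero] at h1
        rw [hpe, ← h1, ← aeval_eq_eval]
        show _ = evalAt hmem (aeval _ p)
        rw [← AlgHom.comp_apply, comp_aeval]
        refine congrArg (fun f => aeval f p) (funext fun i => ?_)
        rcases i with ⟨_ | k⟩
        · show τ = evalAt hmem (ι eA)
          rw [heA]
          simp only [Sum.elim_inl, Pi.smul_apply, smul_eq_mul, mul_left_comm _ (τ / e₀),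
            ← Finset.mul_sum]
          exact (div_mul_cancel₀ τ he₀).symm
        · show b.equivFun h k = evalAt hmem (hc k)
          rw [hhc, Sum.elim_comp_inr, ← hlam]
          rfl
      exact (mul_eq_zero.mp hall).resolve_right (X_ne_zero _)
    refine trdeg_le_of_finite_fibres ψ hψinj (jk 0)
      (a := X (ULift.up none) * X (ULift.up (some 0))) (e := Polynomial.C eA * Polynomial.X)
      (mul_ne_zero (X_ne_zero _) (X_ne_zero _))
      (by rw [map_mul, map_mul, hψX, hψX, hjkC, hjkX]; rfl) fun χ hχ => ?_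
    rw [map_mul] at hχ
    obtain ⟨ht0, hu0⟩ := mul_ne_zero_iff.mp hχ
    obtain ⟨x, hx, hxp⟩ := exists_point_of_algHom (isAlg_imgSet hM hs)
      (χ.comp (IsScalarTower.toAlgHom K (CoordRing Z) (Polynomial (CoordRing Z))))
    have hval : ∀ φ : CoordRing Y →ₐ[K] K, (∀ a, φ (jk 0 a) = χ a) →
        pt φ ∘ Sum.inl = x ∧ lam (pt φ ∘ Sum.inr) 0 = χ Polynomial.X := fun φ hφ => by
      constructor
      · funext Q
        have h1 := hφ (Polynomial.C (Ideal.Quotient.mk _ (X Q)))
        rw [hjkC, hpteq φ] at h1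
        change evalAt (hpt φ) (ι₀ (X Q)) = _ at h1
        rw [hι₀, eval_X] at h1
        exact h1.trans ((hxp (X Q)).trans (eval_X Q))
      · rw [← hhc 0 _ (hpt φ), ← hpteq φ, ← hjkX]
        exact hφ _
    refine Set.Subsingleton.finite fun φ hφ φ' hφ' => hptinj ?_
    obtain ⟨e1, e2⟩ := hval φ hφ
    obtain ⟨e1', e2'⟩ := hval φ' hφ'
    refine huniq _ (hpt φ) _ (hpt φ') (e1.trans e1'.symm) ?_ 0 (e2 ▸ hu0) (e2'.trans e2.symm)
    rw [← heA _ (hpt φ), ← hpteq φ, ← hjkC 0, hφ (Polynomial.C eA)]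
    exact ht0
  have hfin : Algebra.trdeg K (CoordRing Z) < Cardinal.aleph0 := trdeg_lt_aleph0_of_finiteType
  obtain ⟨n, hn⟩ := Cardinal.lt_aleph0.mp hfin
  have h := le_antisymm hle hge
  rw [hA, hB, hn, ← Nat.cast_one, ← Nat.cast_add, Nat.cast_inj] at h
  rw [hn, Nat.cast_inj]
  omega

end FermatAgent.Torsion27
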