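import Fermat.Agent.MW.MulDiv.Fibre
import Mathlib.RingTheory.Ideal.MinimalPrime.Localization

/-!
# Transcendence degrees along correspondences with finite fibres
-/

set_option autoImplicit false

noncomputable section

namespace FermatAgent.Torsion27

open FermatAgent.MW

universe uk uA

variable {k : Type uk} [Field k] [IsAlgClosed k]

/-- If `A` embeds in `R` and the fibres of `R → Spec B` are finite where `e` is non-zero, then
`trdeg A ≤ trdeg B`, provided that `e` is not zero on a component dominating `A`. -/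
theorem trdeg_le_of_finite_fibres {A B R : Type uA} [CommRing A] [IsDomain A] [Algebra k A]
    [CommRing B] [IsDomain B] [Algebra k B] [Algebra.FiniteType k B]
    [CommRing R] [Algebra k R] [Algebra.FiniteType k R]
    (j : A →ₐ[k] R) (hj : Function.Injective j) (ψ : B →ₐ[k] R) {a : A} {e : B} (ha : a ≠ 0)
    (hae : ψ e = j a)
    (hfib : ∀ χ : B →ₐ[k] k, χ e ≠ 0 → {φ : R →ₐ[k] k | ∀ b, φ (ψ b) = χ b}.Finite) :
    Algebra.trdeg k A ≤ Algebra.trdeg k B := by
  obtain ⟨P, hPprime, hPcomap⟩ := Ideal.exists_comap_eq_of_mem_minimalPrimes_of_injective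
    (f := j.toRingHom) hj ⊥ (by rw [IsDomain.minimalPrimes_eq_singleton_bot]; rfl)
  let q : R →ₐ[k] R ⧸ P := Ideal.Quotient.mkₐ k P
  have : Algebra.FiniteType k (R ⧸ P) :=
    Algebra.FiniteType.of_surjective q Ideal.Quotient.mk_surjective
  let j' : A →ₐ[k] R ⧸ P := q.comp j
  have hj' : Function.Injective j' := (injective_iff_map_eq_zero j').mpr fun b hb => by
    have h1 : b ∈ P.comap j.toRingHom :=
      (Ideal.Quotient.eq_zero_iff_mem (I := P)).mp (show Ideal.Quotient.mk P (j b) = 0 from hb)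
    rwa [hPcomap, Ideal.mem_bot] at h1
  let ψ' : B →ₐ[k] R ⧸ P := q.comp ψ
  have he : ψ' e ≠ 0 := fun h => ha (hj' (by
    rw [map_zero, ← h]
    show q (j a) = q (ψ e)
    rw [hae]))
  let B' := ψ'.range
  have : FaithfulSMul B' (R ⧸ P) :=
    (faithfulSMul_iff_algebraMap_injective B' (R ⧸ P)).mpr Subtype.val_injective
  refine (trdeg_le_of_injective j' hj').trans ?_
  by_cases halg : Algebra.IsAlgebraic B' (R ⧸ P)
  · refine le_trans (le_of_eq ?_) (trdeg_le_of_surjective ψ'.rangeRestrict ψ'.rangeRestrict_surjective)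
    obtain ⟨t, ht⟩ := exists_isTranscendenceBasis B' (R ⧸ P)
    have := ht.isEmpty_iff_isAlgebraic.mpr halg
    have h0 : Algebra.trdeg B' (R ⧸ P) = 0 := by rw [← ht.cardinalMk_eq_trdeg, Cardinal.mk_eq_zero]
    rw [← trdeg_add_eq k B' (A := R ⧸ P), h0, add_zero]
  exfalso
  obtain ⟨χ, hχe, hinf⟩ := exists_infinite_fibre (k := k) (B := B') (R := R ⧸ P) halg
    (e := ψ'.rangeRestrict e) fun h => he (congrArg Subtype.val h)
  refine hinf (Set.Finite.subset ?_ fun φ hφ => (show φ.comp q ∈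
    {φ : R →ₐ[k] k | ∀ b, φ (ψ b) = χ.comp ψ'.rangeRestrict b} from fun b => hφ (ψ'.rangeRestrict b)))
  refine (hfib (χ.comp ψ'.rangeRestrict) hχe).preimage (f := fun φ : R ⧸ P →ₐ[k] k => φ.comp q) ?_
  intro φ _ φ' _ h
  refine AlgHom.ext fun r => ?_
  obtain ⟨r, rfl⟩ := Ideal.Quotient.mk_surjective r
  exact DFunLike.congr_fun h r

end FermatAgent.Torsion27
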